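import Mathlib

/-!
# KFin / Char : characters of elementary abelian quotients and Lagrange resolvents
-/

set_option autoImplicit false

namespace Fermat.Agent.KFin

/-- A subgroup containing the commutators of `H'` is normal in `H'`. -/
theorem kf_normal_subgroupOf {G : Type*} [Group G] (H' N' : Subgroup G)
    (hcomm : ∀ σ ∈ H', ∀ τ ∈ H', σ * τ * σ⁻¹ * τ⁻¹ ∈ N') : (N'.subgroupOf H').Normal := by
  refine ⟨fun n hn g => ?_⟩
  rw [Subgroup.mem_subgroupOf] at hn ⊢
  have h1 := hcomm g.1 g.2 n.1 n.2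
  have h2 : ((g * n * g⁻¹ : H') : G) = (g.1 * n.1 * g.1⁻¹ * n.1⁻¹) * n.1 := by
    simp
  rw [h2]
  exact N'.mul_mem h1 hn

/-- **Separating characters**: if `H' / N'` is a finite elementary abelian `p`-group and
`τ ∈ H' ∖ N'`, there is a character of `H'` of exponent `p`, trivial on `N'`, nontrivial at `τ`. -/
theorem kf_exists_char (M : Type*) [Field M] [IsAlgClosed M] [CharZero M]
    {G : Type*} [Group G] (p : ℕ) (H' N' : Subgroup G)
    (hcomm : ∀ σ ∈ H', ∀ τ ∈ H', σ * τ * σ⁻¹ * τ⁻¹ ∈ N')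
    (hpow : ∀ σ ∈ H', σ ^ p ∈ N')
    (hfin : (N'.subgroupOf H').FiniteIndex)
    (τ : G) (hτH : τ ∈ H') (hτN : τ ∉ N') :
    ∃ χ : H' →* Mˣ, (∀ h : H', (h : G) ∈ N' → χ h = 1) ∧ χ ⟨τ, hτH⟩ ≠ 1 ∧
      ∀ h : H', χ h ^ p = 1 := by
  classical
  have hnorm : (N'.subgroupOf H').Normal := kf_normal_subgroupOf H' N' hcomm
  let Q := H' ⧸ N'.subgroupOf H'
  have hfinQ : Finite Q := Subgroup.finite_quotient_of_finiteIndex
  let cg : CommGroup Q :=
    { (inferInstance : Group Q) with
      mul_comm := by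
        intro a b
        induction a using QuotientGroup.induction_on with
        | H a =>
          induction b using QuotientGroup.induction_on with
          | H b =>
            rw [← QuotientGroup.mk_mul, ← QuotientGroup.mk_mul, QuotientGroup.eq,
              Subgroup.mem_subgroupOf]
            have := hcomm (b.1⁻¹) (H'.inv_mem b.2) (a.1⁻¹) (H'.inv_mem a.2)
            have h2 : (((a * b)⁻¹ * (b * a) : H') : G) = b.1⁻¹ * a.1⁻¹ * b.1⁻¹⁻¹ * a.1⁻¹⁻¹ := by
              simp [mul_assoc]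
            rw [h2]
            exact this }
  have hexp : Monoid.exponent Q ≠ 0 := Monoid.exponent_ne_zero_of_finite
  have hne : NeZero ((Monoid.exponent Q : ℕ) : M) := ⟨by exact_mod_cast hexp⟩
  have hτ1 : (QuotientGroup.mk ⟨τ, hτH⟩ : Q) ≠ 1 := by
    intro h
    rw [QuotientGroup.eq_one_iff, Subgroup.mem_subgroupOf] at h
    exact hτN h
  obtain ⟨φ, hφ⟩ := CommGroup.exists_apply_ne_one_of_hasEnoughRootsOfUnity Q M hτ1
  refine ⟨φ.comp (QuotientGroup.mk' (N'.subgroupOf H')), ?_, hφ, ?_⟩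
  · intro h hh
    have : (QuotientGroup.mk' (N'.subgroupOf H') h : Q) = 1 := by
      rw [QuotientGroup.mk'_apply, QuotientGroup.eq_one_iff, Subgroup.mem_subgroupOf]
      exact hh
    rw [MonoidHom.comp_apply, this, map_one]
  · intro h
    rw [← map_pow]
    have : (QuotientGroup.mk' (N'.subgroupOf H') (h ^ p) : Q) = 1 := by
      rw [QuotientGroup.mk'_apply, QuotientGroup.eq_one_iff, Subgroup.mem_subgroupOf]
      have := hpow h.1 h.2
      simpa using this
    rw [MonoidHom.comp_apply, this, map_one]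

end Fermat.Agent.KFin
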