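import Mathlib
import Fermat.Prelude.Def_FLTPrelim_Ramification
import Fermat.Agent.Lib.Minkowski.Final

/-!
# KFin / Bridge : unramified in the Prelude sense ⟹ unramified in the Mathlib sense

For a finite Galois extension `L / ℚ` inside `ℚ̄`: if the inertia subgroups of `Gal(ℚ̄/ℚ)` at the
valuation subrings above `q` fix `L`, then every prime of `𝓞 L` above `q` has ramification index
`1` over `ℤ`.
-/

set_option autoImplicit false

open NumberField Fermat.Agent.FrobExists

namespace Fermat.Agent.KFin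

/-- The prime of `𝓞 L` below a valuation subring of `ℚ̄`. -/
noncomputable def primeBelow (L : IntermediateField ℚ Qb) (A : ValuationSubring Qb) :
    Ideal (𝓞 L) :=
  Ideal.comap
    ({ toFun := fun x => ⟨((x : L) : Qb), mem_valuationSubring_of_isIntegral A
          (x.isIntegral_coe.map (IsScalarTower.toAlgHom ℤ L Qb))⟩
       map_one' := rfl
       map_mul' := fun _ _ => rfl
       map_zero' := rfl
       map_add' := fun _ _ => rfl } : 𝓞 L →+* A)
    (IsLocalRing.maximalIdeal A)

instance primeBelow_isPrime (L : IntermediateField ℚ Qb) (A : ValuationSubring Qb) :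
    (primeBelow L A).IsPrime :=
  Ideal.comap_isPrime _ _

theorem mem_primeBelow_iff (L : IntermediateField ℚ Qb) (A : ValuationSubring Qb) (y : 𝓞 L) :
    y ∈ primeBelow L A ↔ (((y : L) : Qb)) ∈ A.nonunits := by
  rw [primeBelow, Ideal.mem_comap, ← ValuationSubring.coe_mem_nonunits_iff]
  rfl

theorem natCast_mem_primeBelow (L : IntermediateField ℚ Qb) (A : ValuationSubring Qb) (q : ℕ)
    (hA : A.LiesOverPrime q) : ((q : ℕ) : 𝓞 L) ∈ primeBelow L A := by
  rw [mem_primeBelow_iff]
  have : (((q : 𝓞 L) : L) : Qb) = (q : Qb) := by simp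
  rw [this]
  exact hA

/-- The prime below `A` is unramified if the inertia group of `A` fixes `L`. -/
theorem isUnramifiedAt_primeBelow (L : IntermediateField ℚ Qb) [FiniteDimensional ℚ L]
    [IsGalois ℚ L] (A : ValuationSubring Qb) (q : ℕ) (hq : q.Prime) (hA : A.LiesOverPrime q)
    (h : A.inertiaSubgroupIn ℚ ≤ L.fixingSubgroup) :
    haveI : NumberField L := { to_charZero := inferInstance, to_finiteDimensional := inferInstance }
    Algebra.IsUnramifiedAt ℤ (primeBelow L A) := by
  have hnf : NumberField L :=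
    { to_charZero := inferInstance, to_finiteDimensional := inferInstance }
  by_contra hram
  have hqP := natCast_mem_primeBelow L A q hA
  have hP0 : primeBelow L A ≠ ⊥ := by
    intro h0
    rw [h0, Ideal.mem_bot] at hqP
    exact hq.ne_zero (by exact_mod_cast hqP)
  obtain ⟨s, hs1, hs⟩ := Fermat.Agent.Minkowski.exists_inertia_ne_one (primeBelow L A) hP0 hram
  obtain ⟨σ, hσI, hσs⟩ := Fermat.Agent.Minkowski.inertiaLift_holds A q hq hA L s (by
    intro x hx
    obtain ⟨y, hyP, hy⟩ := hs ⟨x, hx⟩
    have hy' : ((s x : L) : Qb) - (x : Qb) = (((y : L)) : Qb) :=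
      congrArg (fun z : L => (z : Qb)) hy
    rw [hy']
    exact (mem_primeBelow_iff L A y).mp hyP)
  have hker : σ ∈ L.fixingSubgroup := h hσI
  have h1 := Fermat.Agent.Minkowski.restrictNormalHom_eq_one_of_mem_fixingSubgroup L hker
  exact hs1 (hσs ▸ h1)

theorem liesOver_span_of_natCast_mem {R : Type*} [CommRing R] (q : ℕ) (hq : q.Prime)
    (P : Ideal R) [P.IsPrime] (hP : (q : R) ∈ P) : P.LiesOver (Ideal.span {(q : ℤ)}) := by
  have hqfact : Fact q.Prime := ⟨hq⟩
  have hpmax : (Ideal.span {(q : ℤ)}).IsMaximal := Int.ideal_span_isMaximal_of_prime q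
  refine ⟨?_⟩
  have hle : Ideal.span {(q : ℤ)} ≤ P.under ℤ := by
    rw [Ideal.span_singleton_le_iff_mem, Ideal.mem_comap]
    simpa using hP
  have hne : P.under ℤ ≠ ⊤ := (Ideal.comap_isPrime (algebraMap ℤ R) P).ne_top
  exact hpmax.eq_of_le hne hle

/-- **Bridge**: if all inertia groups above `q` fix the finite Galois extension `L / ℚ`, then all
primes of `𝓞 L` above `q` have ramification index `1`. -/
theorem ramificationIdx_eq_one_of_inertia_le (L : IntermediateField ℚ Qb) [FiniteDimensional ℚ L]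
    [IsGalois ℚ L] (q : ℕ) (hq : q.Prime)
    (h : ∀ A : ValuationSubring Qb, A.LiesOverPrime q →
      A.inertiaSubgroupIn ℚ ≤ L.fixingSubgroup)
    (P : Ideal (𝓞 L)) [P.IsPrime] (hP : (q : 𝓞 L) ∈ P) : P.ramificationIdx ℤ = 1 := by
  have hnf : NumberField L :=
    { to_charZero := inferInstance, to_finiteDimensional := inferInstance }
  obtain ⟨A, hA⟩ := exists_valuationSubring_liesOver q hq
  have hunr := isUnramifiedAt_primeBelow L A q hq hA (h A hA)
  have hqfact : Fact q.Prime := ⟨hq⟩
  have hpmax : (Ideal.span {(q : ℤ)}).IsMaximal := Int.ideal_span_isMaximal_of_prime q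
  have hl1 : P.LiesOver (Ideal.span {(q : ℤ)}) := liesOver_span_of_natCast_mem q hq P hP
  have hl0 : (primeBelow L A).LiesOver (Ideal.span {(q : ℤ)}) :=
    liesOver_span_of_natCast_mem q hq _ (natCast_mem_primeBelow L A q hA)
  let : MulSemiringAction Gal(L/ℚ) (𝓞 L) := IsIntegralClosure.MulSemiringAction ℤ ℚ L (𝓞 L)
  have hG := IsGaloisGroup.of_isFractionRing Gal(L/ℚ) ℤ (𝓞 L) ℚ L
  have h0 : (primeBelow L A).ramificationIdx ℤ = 1 := by
    have hprime : ((primeBelow L A).under ℤ).IsPrime := inferInstance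
    have hne : (primeBelow L A).under ℤ ≠ ⊥ := by
      rw [← Ideal.over_def (primeBelow L A) (Ideal.span {(q : ℤ)})]
      rw [Ne, Ideal.span_singleton_eq_bot]
      exact_mod_cast hq.ne_zero
    have hmax : ((primeBelow L A).under ℤ).IsMaximal := hprime.isMaximal hne
    exact Ideal.ramificationIdx_eq_one_iff.mpr hunr
  rw [← Ideal.ramificationIdxIn_eq_ramificationIdx (Ideal.span {(q : ℤ)}) P Gal(L/ℚ),
    Ideal.ramificationIdxIn_eq_ramificationIdx (Ideal.span {(q : ℤ)}) (primeBelow L A) Gal(L/ℚ)]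
  exact h0

end Fermat.Agent.KFin
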