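import Mathlib
import Fermat.Agent.S14.SI.SUnitRankZ
import Fermat.Agent.S14.SI.ExistsGoodS
import Fermat.Agent.S14.SI.ClassGen

/-!
# KFin / Val : Kummer generators of extensions unramified outside a finite set (number fields)

Abstract number-field part of the finiteness theorem `Fermat.Agent.KFin.kfin`:

* `exists_valuation_eq_exp_of_unramified`: if `a = α ^ p` in an extension `L / K` and all primes of
  `L` above the rational prime `q` are unramified over `ℤ`, then `p ∣ ord_v a` for every prime `v`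
  of `K` above `q`;
* `exists_mul_pow_mem_sUnits`: if `p ∣ ord_v a` for all `v ∉ T` and the primes of `T` generate the
  class group, then `a * b ^ p` is a `T`-unit for some `b`;
* `exists_sUnits_generators`: the `T`-units are generated by finitely many elements.
-/

set_option autoImplicit false

open NumberField IsDedekindDomain WithZero

namespace Fermat.Agent.KFin

section Unram

variable {K L : Type*} [Field K] [NumberField K] [Field L] [NumberField L] [Algebra K L]

/-- If `a = α ^ p` in `L` and `w ∣ v` is unramified, then `p ∣ ord_v a`. -/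
theorem exists_valuation_eq_exp_of_ramificationIdx_eq_one {p : ℕ} {a : K} {α : L} (hα0 : α ≠ 0)
    (hα : α ^ p = algebraMap K L a) (v : HeightOneSpectrum (𝓞 K)) (w : HeightOneSpectrum (𝓞 L))
    [w.asIdeal.LiesOver v.asIdeal] (he : v.asIdeal.ramificationIdx' w.asIdeal = 1) :
    ∃ m : ℤ, v.valuation K a = exp ((p : ℤ) * m) := by
  have h := HeightOneSpectrum.valuation_liesOver L v w a
  rw [he, pow_one, ← hα, map_pow] at h
  refine ⟨WithZero.log (w.valuation L α), ?_⟩
  rw [h]
  have h0 : w.valuation L α ≠ 0 := (Valuation.ne_zero_iff _).mpr hα0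
  conv_lhs => rw [← WithZero.exp_log h0]
  rw [← WithZero.exp_nsmul]
  simp

/-- If `a = α ^ p` in `L`, and every prime of `L` above the rational prime `q` is unramified over
`ℤ`, then `p ∣ ord_v a` for every prime `v` of `K` above `q`. -/
theorem exists_valuation_eq_exp_of_unramified {p q : ℕ} (hq : q.Prime)
    (hunr : ∀ (P : Ideal (𝓞 L)) [P.IsPrime], (q : 𝓞 L) ∈ P → P.ramificationIdx ℤ = 1)
    {a : K} {α : L} (hα0 : α ≠ 0) (hα : α ^ p = algebraMap K L a)
    (v : HeightOneSpectrum (𝓞 K)) (hv : (q : 𝓞 K) ∈ v.asIdeal) :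
    ∃ m : ℤ, v.valuation K a = exp ((p : ℤ) * m) := by
  have hvmax : v.asIdeal.IsMaximal := v.isMaximal
  obtain ⟨Q, hQmax, hQv⟩ :=
    Ideal.exists_maximal_ideal_liesOver_of_isIntegral (S := 𝓞 L) v.asIdeal
  have hQprime : Q.IsPrime := hQmax.isPrime
  have hQ0 : Q ≠ ⊥ := Ideal.ne_bot_of_liesOver_of_ne_bot v.ne_bot Q
  let w : HeightOneSpectrum (𝓞 L) := ⟨Q, hQprime, hQ0⟩
  have hw : w.asIdeal.LiesOver v.asIdeal := hQv
  have hqfact : Fact q.Prime := ⟨hq⟩
  have hpmax : (Ideal.span {(q : ℤ)}).IsMaximal := Int.ideal_span_isMaximal_of_prime q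
  have hp0 : (Ideal.span {(q : ℤ)}) ≠ ⊥ := by
    rw [Ne, Ideal.span_singleton_eq_bot]
    exact_mod_cast hq.ne_zero
  have hvq : v.asIdeal.LiesOver (Ideal.span {(q : ℤ)}) := by
    refine ⟨?_⟩
    have hle : Ideal.span {(q : ℤ)} ≤ v.asIdeal.under ℤ := by
      rw [Ideal.span_singleton_le_iff_mem, Ideal.mem_comap]
      simpa using hv
    have hne : v.asIdeal.under ℤ ≠ ⊤ :=
      (Ideal.comap_isPrime (algebraMap ℤ (𝓞 K)) v.asIdeal).ne_top
    exact hpmax.eq_of_le hne hle
  have hQq : Q.LiesOver (Ideal.span {(q : ℤ)}) := Ideal.LiesOver.trans Q v.asIdeal _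
  have hqQ : (q : 𝓞 L) ∈ Q := by
    have h1 : (q : ℤ) ∈ Q.under ℤ := by
      rw [← Ideal.over_def Q (Ideal.span {(q : ℤ)})]
      exact Ideal.mem_span_singleton_self _
    simpa [Ideal.mem_comap] using h1
  have h1 : (Ideal.span {(q : ℤ)}).ramificationIdx' Q = 1 := by
    rw [Ideal.ramificationIdx'_eq_ramificationIdx _ Q hp0]
    exact hunr Q hqQ
  have h2 := Ideal.ramificationIdx'_algebra_tower' (Ideal.span {(q : ℤ)}) v.asIdeal Q
  rw [h1] at h2
  have h3 : v.asIdeal.ramificationIdx' w.asIdeal = 1 := Nat.eq_one_of_mul_eq_one_left h2.symm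
  exact exists_valuation_eq_exp_of_ramificationIdx_eq_one hα0 hα v w h3

end Unram

section SUnits

open Fermat.Agent.S14SI

variable (K : Type) [Field K] [NumberField K]

/-- the set of primes at which `a` is not a unit is finite. -/
theorem finite_valuation_ne_one (a : Kˣ) :
    {v : HeightOneSpectrum (𝓞 K) | v.valuation K (a : K) ≠ 1}.Finite := by
  have h1 := HeightOneSpectrum.Support.finite (𝓞 K) (a : K)
  have h2 := HeightOneSpectrum.Support.finite (𝓞 K) ((a⁻¹ : Kˣ) : K)
  refine (h1.union h2).subset ?_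
  intro v hv
  rw [Set.mem_ofPred_eq] at hv
  rcases lt_or_gt_of_ne hv with h | h
  · right
    show 1 < v.valuation K ((a⁻¹ : Kˣ) : K)
    rw [Units.val_inv_eq_inv_val, map_inv₀]
    exact (one_lt_inv₀ ((Valuation.pos_iff _).mpr a.ne_zero)).mpr h
  · left
    exact h

/-- If `p ∣ ord_v a` for all `v ∉ T` and the primes of `T` generate the class group, then
`a * b ^ p` is a `T`-unit for some `b`. -/
theorem exists_mul_pow_mem_sUnits (T : Finset (HeightOneSpectrum (𝓞 K)))
    (hgen : GeneratesClassGroup K T) {p : ℕ} (hp : 0 < p) (a : Kˣ)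
    (h : ∀ v : HeightOneSpectrum (𝓞 K), v ∉ T →
      ∃ m : ℤ, v.valuation K (a : K) = exp ((p : ℤ) * m)) :
    ∃ b : Kˣ, a * b ^ p ∈ sUnits K (T : Set (HeightOneSpectrum (𝓞 K))) := by
  classical
  have hfin : (Function.support fun v : HeightOneSpectrum (𝓞 K) =>
      WithZero.log (v.valuation K (a : K)) / (p : ℤ)).Finite := by
    refine (finite_valuation_ne_one K a).subset ?_
    intro v hv
    rw [Function.mem_support] at hv
    rw [Set.mem_ofPred_eq]
    intro h1
    apply hv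
    rw [h1]
    simp
  let exps : HeightOneSpectrum (𝓞 K) →₀ ℤ := Finsupp.ofSupportFinite _ hfin
  have hexps : ∀ v, exps v = WithZero.log (v.valuation K (a : K)) / (p : ℤ) := fun v => rfl
  obtain ⟨c, hc⟩ := exists_valuation_eq_of_closure_eq_top (K := K)
    (S := (T : Set (HeightOneSpectrum (𝓞 K)))) hgen exps
  refine ⟨c, ?_⟩
  rw [mem_sUnits]
  intro v hv
  have hvT : v ∉ T := by simpa using hv
  obtain ⟨m, hm⟩ := h v hvT
  have hp0 : (p : ℤ) ≠ 0 := by exact_mod_cast hp.ne'
  have hm' : exps v = m := by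
    rw [hexps, hm, WithZero.log_exp, Int.mul_ediv_cancel_left _ hp0]
  rw [Units.val_mul, Units.val_pow_eq_pow_val, map_mul, map_pow, hc v hv, hm, hm',
    ← WithZero.exp_nsmul, ← WithZero.exp_add]
  simp

/-- The `T`-units are generated by finitely many elements. -/
theorem exists_sUnits_generators (T : Finset (HeightOneSpectrum (𝓞 K))) :
    ∃ (n : ℕ) (g : Fin n → Kˣ), ∀ u ∈ sUnits K (T : Set (HeightOneSpectrum (𝓞 K))),
      ∃ k : Fin n → ℤ, u = ∏ i, g i ^ k i := by
  obtain ⟨hfin, -⟩ := sUnitRankZ K (T : Set (HeightOneSpectrum (𝓞 K))) T.finite_toSet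
  obtain ⟨n, s, hs⟩ := Module.Finite.exists_fin (R := ℤ)
    (M := Additive ↥(sUnits K (T : Set (HeightOneSpectrum (𝓞 K)))))
  refine ⟨n, fun i => ((Additive.toMul (s i) : ↥(sUnits K (T : Set (HeightOneSpectrum (𝓞 K))))) : Kˣ),
    fun u hu => ?_⟩
  have hx : (Additive.ofMul (⟨u, hu⟩ : ↥(sUnits K (T : Set (HeightOneSpectrum (𝓞 K)))))) ∈
      Submodule.span ℤ (Set.range s) := by
    rw [hs]
    trivial
  obtain ⟨k, hk⟩ := (Submodule.mem_span_range_iff_exists_fun ℤ).mp hx
  refine ⟨k, ?_⟩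
  have h1 := congrArg (fun y => ((Additive.toMul y :
    ↥(sUnits K (T : Set (HeightOneSpectrum (𝓞 K))))) : Kˣ)) hk
  simp only [toMul_sum, toMul_zsmul, toMul_ofMul] at h1
  rw [← h1]
  simp

/-- a natural number lying in a prime ideal is `0` or has a prime factor lying in it. -/
theorem exists_prime_natCast_mem {R : Type*} [CommRing R] (P : Ideal R) [hP : P.IsPrime] (n : ℕ)
    (hn : (n : R) ∈ P) : n = 0 ∨ ∃ q : ℕ, q.Prime ∧ (q : R) ∈ P := by
  induction n using Nat.recOnMul with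
  | zero => exact Or.inl rfl
  | one =>
    exfalso
    apply hP.ne_top
    rw [Ideal.eq_top_iff_one]
    simpa using hn
  | prime q hq => exact Or.inr ⟨q, hq, hn⟩
  | mul a b iha ihb =>
    rw [Nat.cast_mul] at hn
    rcases hP.mem_or_mem hn with h | h
    · rcases iha h with h0 | h1
      · left; rw [h0, zero_mul]
      · exact Or.inr h1
    · rcases ihb h with h0 | h1
      · left; rw [h0, mul_zero]
      · exact Or.inr h1

/-- every prime of a number field lies above a rational prime. -/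
theorem exists_prime_mem_asIdeal (v : HeightOneSpectrum (𝓞 K)) :
    ∃ q : ℕ, q.Prime ∧ (q : 𝓞 K) ∈ v.asIdeal := by
  have h1 := Ideal.absNorm_mem v.asIdeal
  have h2 : ((Ideal.absNorm v.asIdeal : ℕ) : 𝓞 K) ∈ v.asIdeal := by exact_mod_cast h1
  rcases exists_prime_natCast_mem v.asIdeal _ h2 with h | h
  · exact absurd (Ideal.absNorm_eq_zero_iff.mp h) v.ne_bot
  · exact h

/-- **Abstract core.** There are finitely many elements `g i` of `Kˣ` such that every `a ∈ Kˣ`
with `p ∣ ord_v a` at all primes `v` not above `S₁` is of the form `∏ g i ^ k i / b ^ p`. -/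
theorem exists_generators_of_dvd (p : ℕ) (hp : 0 < p) (S₁ : Finset ℕ) :
    ∃ (n : ℕ) (g : Fin n → Kˣ), ∀ a : Kˣ,
      (∀ q : ℕ, q.Prime → q ∉ S₁ → ∀ v : HeightOneSpectrum (𝓞 K), (q : 𝓞 K) ∈ v.asIdeal →
        ∃ m : ℤ, v.valuation K (a : K) = exp ((p : ℤ) * m)) →
      ∃ (b : Kˣ) (k : Fin n → ℤ), a * b ^ p = ∏ i, g i ^ k i := by
  classical
  -- the primes above `S₁`
  set x : ℕ := ∏ q ∈ S₁.filter Nat.Prime, q with hx
  have hx0 : x ≠ 0 := by
    rw [hx, Finset.prod_ne_zero_iff]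
    intro q hq
    exact ((Finset.mem_filter.mp hq).2).ne_zero
  have hxK : ((x : 𝓞 K) : K) ≠ 0 := by
    have : (x : 𝓞 K) ≠ 0 := by exact_mod_cast hx0
    simpa using this
  have hBfin : {v : HeightOneSpectrum (𝓞 K) | (x : 𝓞 K) ∈ v.asIdeal}.Finite := by
    refine (finite_valuation_ne_one K (Units.mk0 _ hxK)).subset ?_
    intro v hv
    rw [Set.mem_ofPred_eq] at hv ⊢
    rw [Units.val_mk0]
    exact ne_of_lt ((v.valuation_lt_one_iff_mem _).mpr hv)
  obtain ⟨T, hBT, hgen⟩ := existsGoodS K hBfin.toFinset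
  obtain ⟨n, g, hg⟩ := exists_sUnits_generators K T
  refine ⟨n, g, fun a ha => ?_⟩
  have h : ∀ v : HeightOneSpectrum (𝓞 K), v ∉ T →
      ∃ m : ℤ, v.valuation K (a : K) = exp ((p : ℤ) * m) := by
    intro v hv
    obtain ⟨q, hq, hqv⟩ := exists_prime_mem_asIdeal K v
    refine ha q hq ?_ v hqv
    intro hqS
    apply hv
    apply hBT
    rw [Set.Finite.mem_toFinset, Set.mem_ofPred_eq]
    have hdvd : q ∣ x := Finset.dvd_prod_of_mem _ (Finset.mem_filter.mpr ⟨hqS, hq⟩)
    obtain ⟨c, hc⟩ := hdvd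
    rw [hc, Nat.cast_mul]
    exact Ideal.mul_mem_right _ _ hqv
  obtain ⟨b, hb⟩ := exists_mul_pow_mem_sUnits K T hgen hp a h
  obtain ⟨k, hk⟩ := hg _ hb
  exact ⟨b, k, hk⟩

end SUnits

end Fermat.Agent.KFin
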