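import Mathlib
import Fermat.Agent.Lib.KFin.Val
import Fermat.Agent.Lib.KFin.Bridge

/-!
# KFin / Core : Kummer generators of extensions of `E'` unramified outside `S₁` lie in a fixed
finite extension

`exists_field_of_kummer`: for a finite extension `E' / ℚ` inside `ℚ̄`, a prime `p`, a primitive
`p`-th root of unity `ζ` and a finite set `S₁` of primes there is a finite extension `F ⊇ E'`
containing every `α` with `α ^ p ∈ E'` which lies in a finite Galois extension `L ⊇ E'` of `ℚ`
unramified outside `S₁` (in the sense of the Prelude: inertia subgroups fix `L`).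
-/

set_option autoImplicit false

open NumberField IsDedekindDomain WithZero Fermat.Agent.FrobExists

namespace Fermat.Agent.KFin

theorem exists_field_of_kummer (p : ℕ) (hp : p.Prime) (S₁ : Finset ℕ)
    (E' : IntermediateField ℚ Qb) [FiniteDimensional ℚ E'] (ζ : Qb) (hζ : IsPrimitiveRoot ζ p) :
    ∃ F : IntermediateField ℚ Qb, FiniteDimensional ℚ F ∧ E' ≤ F ∧
      ∀ α : Qb, α ≠ 0 → α ^ p ∈ E' →
        ∀ L : IntermediateField ℚ Qb, FiniteDimensional ℚ L → IsGalois ℚ L → E' ≤ L → α ∈ L →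
          (∀ q : ℕ, q.Prime → q ∉ S₁ → ∀ A : ValuationSubring Qb, A.LiesOverPrime q →
            A.inertiaSubgroupIn ℚ ≤ L.fixingSubgroup) → α ∈ F := by
  classical
  have hnfE : NumberField E' :=
    { to_charZero := inferInstance, to_finiteDimensional := inferInstance }
  have hpne : NeZero p := ⟨hp.ne_zero⟩
  obtain ⟨n, g, hg⟩ := exists_generators_of_dvd E' p hp.pos S₁
  have hγ : ∀ i : Fin n, ∃ z : Qb, z ^ p = (((g i : (E')ˣ) : E') : Qb) := fun i =>
    IsAlgClosed.exists_pow_nat_eq _ hp.pos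
  choose γ hγ using hγ
  let F : IntermediateField ℚ Qb := E' ⊔ IntermediateField.adjoin ℚ (insert ζ (Set.range γ))
  have hfinS : Finite ↑(insert ζ (Set.range γ)) := (Set.finite_range γ).insert ζ |>.to_subtype
  have hFfin2 : FiniteDimensional ℚ (IntermediateField.adjoin ℚ (insert ζ (Set.range γ))) :=
    IntermediateField.finiteDimensional_adjoin fun x _ =>
      (isAlgebraic_Qb.isAlgebraic x).isIntegral
  have hFfin : FiniteDimensional ℚ F := IntermediateField.finiteDimensional_sup _ _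
  have hEF : E' ≤ F := le_sup_left
  have hζF : ζ ∈ F :=
    (le_sup_right : IntermediateField.adjoin ℚ (insert ζ (Set.range γ)) ≤ F)
      (IntermediateField.subset_adjoin ℚ _ (Set.mem_insert _ _))
  have hγF : ∀ i, γ i ∈ F := fun i =>
    (le_sup_right : IntermediateField.adjoin ℚ (insert ζ (Set.range γ)) ≤ F)
      (IntermediateField.subset_adjoin ℚ _ (Set.mem_insert_of_mem _ ⟨i, rfl⟩))
  refine ⟨F, hFfin, hEF, ?_⟩
  intro α hα0 hαE L hLfin hLgal hEL hαL hunr
  have hnfL : NumberField L :=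
    { to_charZero := inferInstance, to_finiteDimensional := inferInstance }
  let algEL : Algebra E' L := (IntermediateField.inclusion hEL).toRingHom.toAlgebra
  -- the element `a = α ^ p` of `E'`
  have ha0 : (⟨α ^ p, hαE⟩ : E') ≠ 0 := by
    intro h
    have := congrArg (fun z : E' => (z : Qb)) h
    exact pow_ne_zero p hα0 this
  let a : (E')ˣ := Units.mk0 ⟨α ^ p, hαE⟩ ha0
  have hα' : (⟨α, hαL⟩ : L) ^ p = algebraMap E' L (a : E') := by
    apply Subtype.ext
    rfl
  have hα0' : (⟨α, hαL⟩ : L) ≠ 0 := by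
    intro h
    exact hα0 (congrArg (fun z : L => (z : Qb)) h)
  obtain ⟨b, k, hbk⟩ := hg a (by
    intro q hq hqS v hv
    exact exists_valuation_eq_exp_of_unramified (K := E') (L := L) hq
      (fun P _ hP => ramificationIdx_eq_one_of_inertia_le L q hq (hunr q hq hqS) P hP)
      hα0' hα' v hv)
  -- transfer to `ℚ̄`
  have h1 : α ^ p * (((b : (E')ˣ) : E') : Qb) ^ p = (∏ i, γ i ^ k i) ^ p := by
    have h := congrArg (fun u : (E')ˣ => E'.val ((u : (E')ˣ) : E')) hbk
    simp only [Units.val_mul, Units.val_pow_eq_pow_val, Units.coe_prod,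
      Units.val_zpow_eq_zpow_val, map_mul, map_pow, map_prod, map_zpow₀,
      IntermediateField.coe_val] at h
    rw [← Finset.prod_pow]
    have h2 : ∀ i, (γ i ^ k i) ^ p = (((g i : (E')ˣ) : E') : Qb) ^ k i := by
      intro i
      rw [← zpow_natCast, ← zpow_mul, mul_comm, zpow_mul, zpow_natCast, hγ i]
    simp only [h2]
    rw [← h]
    rfl
  have hb0 : (((b : (E')ˣ) : E') : Qb) ≠ 0 := by
    intro h
    have : ((b : (E')ˣ) : E') = 0 := Subtype.ext h
    exact b.ne_zero this
  have hγ0 : ∀ i, γ i ≠ 0 := by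
    intro i h
    have h3 := hγ i
    rw [h, zero_pow hp.ne_zero] at h3
    have : ((g i : (E')ˣ) : E') = 0 := Subtype.ext h3.symm
    exact (g i).ne_zero this
  have hprod0 : (∏ i, γ i ^ k i) ≠ 0 :=
    Finset.prod_ne_zero_iff.mpr fun i _ => zpow_ne_zero _ (hγ0 i)
  have h3 : (α * (((b : (E')ˣ) : E') : Qb) / ∏ i, γ i ^ k i) ^ p = 1 := by
    rw [div_pow, mul_pow, h1, div_self (pow_ne_zero p hprod0)]
  obtain ⟨j, -, hj⟩ := hζ.eq_pow_of_pow_eq_one h3
  have h4 : α = ζ ^ j * (∏ i, γ i ^ k i) / (((b : (E')ˣ) : E') : Qb) := by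
    rw [hj]
    field_simp
  rw [h4]
  refine div_mem (mul_mem (pow_mem hζF j) ?_) (hEF ((b : (E')ˣ) : E').2)
  exact prod_mem fun i _ => zpow_mem (hγF i) _

end Fermat.Agent.KFin
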