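import Mathlib
import Fermat.Prelude.Def_FLTPrelim_Ramification
import Fermat.Agent.Lib.Cyclo.ModChar

/-!
# KFin / Inertia : conjugation of inertia subgroups, action of inertia on roots of unity
-/

set_option autoImplicit false

open scoped Pointwise

namespace Fermat.Agent.KFin

section Inertia

variable {K L : Type*} [Field K] [Field L] [Algebra K L]

/-- Elementwise description of the inertia subgroup. -/
theorem kf_mem_inertiaSubgroupIn_iff (A : ValuationSubring L) (τ : L ≃ₐ[K] L) :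
    τ ∈ A.inertiaSubgroupIn K ↔ τ • A = A ∧ ∀ a ∈ A, τ a - a ∈ A.nonunits := by
  constructor
  · rintro ⟨g, hg, rfl⟩
    refine ⟨g.2, fun a ha => ?_⟩
    have hg' : MulSemiringAction.toRingAut (A.decompositionSubgroup K)
        (IsLocalRing.ResidueField A) g = 1 := hg
    have h1 : g • (IsLocalRing.residue A ⟨a, ha⟩) = IsLocalRing.residue A ⟨a, ha⟩ := by
      have := congrArg (fun φ : RingAut (IsLocalRing.ResidueField A) =>
        φ (IsLocalRing.residue A ⟨a, ha⟩)) hg'
      exact this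
    have h2 : IsLocalRing.residue A (g • (⟨a, ha⟩ : A) - ⟨a, ha⟩) = 0 := by
      rw [map_sub, sub_eq_zero]
      exact h1
    have h3 : (g • (⟨a, ha⟩ : A) - ⟨a, ha⟩) ∈ IsLocalRing.maximalIdeal A :=
      (IsLocalRing.residue_eq_zero_iff _).mp h2
    exact (A.coe_mem_nonunits_iff).mpr h3
  · rintro ⟨hτ, h⟩
    have hdec : τ ∈ A.decompositionSubgroup K := hτ
    refine ⟨⟨τ, hdec⟩, ?_, rfl⟩
    change MulSemiringAction.toRingAut (A.decompositionSubgroup K)
        (IsLocalRing.ResidueField A) ⟨τ, hdec⟩ = 1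
    ext x
    change (⟨τ, hdec⟩ : A.decompositionSubgroup K) • x = x
    obtain ⟨a, rfl⟩ := IsLocalRing.residue_surjective x
    have h3 : ((⟨τ, hdec⟩ : A.decompositionSubgroup K) • a - a) ∈ IsLocalRing.maximalIdeal A := by
      rw [← A.coe_mem_nonunits_iff]
      exact h a.1 a.2
    have h2 := (IsLocalRing.residue_eq_zero_iff _).mpr h3
    rw [map_sub, sub_eq_zero] at h2
    exact h2

theorem kf_smul_mem_nonunits (A : ValuationSubring L) (σ : L ≃ₐ[K] L) {x : L}
    (hx : x ∈ A.nonunits) : σ x ∈ (σ • A).nonunits := by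
  rw [ValuationSubring.mem_nonunits_iff_or] at hx ⊢
  rcases hx with rfl | hx
  · left; simp
  · right
    intro h
    apply hx
    rw [← map_inv₀] at h
    exact (ValuationSubring.smul_mem_pointwise_smul_iff (g := σ)).mp h

/-- Conjugation of inertia subgroups. -/
theorem kf_conj_mem_inertiaSubgroupIn (A : ValuationSubring L) (σ τ : L ≃ₐ[K] L)
    (hτ : τ ∈ A.inertiaSubgroupIn K) : σ * τ * σ⁻¹ ∈ (σ • A).inertiaSubgroupIn K := by
  rw [kf_mem_inertiaSubgroupIn_iff] at hτ ⊢
  obtain ⟨h1, h2⟩ := hτ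
  refine ⟨?_, ?_⟩
  · rw [mul_smul, inv_smul_smul, mul_smul, h1]
  · intro b hb
    obtain ⟨a, ha, rfl⟩ := (ValuationSubring.mem_smul_pointwise_iff_exists σ b A).mp hb
    have h3 := kf_smul_mem_nonunits A σ (h2 a ha)
    have h4 : (σ * τ * σ⁻¹) (σ • a) - σ • a = σ (τ a - a) := by
      rw [map_sub]
      congr 1
      show σ (τ (σ⁻¹ (σ a))) = σ (τ a)
      congr 2
      show σ.symm (σ a) = a
      simp
    rw [h4]
    exact h3

theorem kf_liesOverPrime_smul (A : ValuationSubring L) (σ : L ≃ₐ[K] L) (q : ℕ)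
    (hA : A.LiesOverPrime q) : (σ • A).LiesOverPrime q := by
  have := kf_smul_mem_nonunits A σ hA
  rwa [map_natCast] at this

end Inertia

open Fermat.Agent.Cyclo in
/-- Inertia at `q` fixes the `n`-th roots of unity when `q ∤ n`. -/
theorem kf_inertia_fix_root (n : ℕ) (hn0 : n ≠ 0) {q : ℕ} (hq : q.Prime) (hqn : ¬ q ∣ n)
    (A : ValuationSubring (AlgebraicClosure ℚ)) (hA : A.LiesOverPrime q)
    (σ : AlgebraicClosure ℚ ≃ₐ[ℚ] AlgebraicClosure ℚ) (hσ : σ ∈ A.inertiaSubgroupIn ℚ)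
    {t : AlgebraicClosure ℚ} (ht : t ^ n = 1) : σ t = t := by
  have : NeZero n := ⟨hn0⟩
  refine root_eq_of_sub_mem_nonunits n A hq hA hqn ?_ ht
    (inertia_sub_mem_nonunits A hσ (pow_eq_one_mem A hn0 ht))
  rw [← map_pow, ht, map_one]

end Fermat.Agent.KFin
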