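import Mathlib

/-!
# KFin / Resolvent : Lagrange resolvents for a character of an open subgroup of a Galois group
-/

set_option autoImplicit false

namespace Fermat.Agent.KFin

/-- **Lagrange resolvent.**  Let `C ≤ H'` be subgroups of `Gal(K/k)`, `C` normal and closed
(in the sense that it is the fixing subgroup of its fixed field) and of finite index in `H'`, and
let `χ : H' → Kˣ` be a character trivial on `C` whose values are fixed by `H'`.  Then there is
`α ≠ 0` in the fixed field of `C` with `σ α = χ(σ) α` for all `σ ∈ H'`. -/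
theorem kf_exists_resolvent {k K : Type*} [Field k] [Field K] [Algebra k K]
    (H' C : Subgroup (K ≃ₐ[k] K)) (hCH : C ≤ H') (hCn : C.Normal)
    (hfin : (C.subgroupOf H').FiniteIndex)
    (hCclosed : (IntermediateField.fixedField C).fixingSubgroup ≤ C)
    (χ : H' →* Kˣ) (hχC : ∀ h : H', (h : K ≃ₐ[k] K) ∈ C → χ h = 1)
    (hχfix : ∀ σ h : H', (σ : K ≃ₐ[k] K) ((χ h : Kˣ) : K) = ((χ h : Kˣ) : K)) :
    ∃ α : K, α ≠ 0 ∧ α ∈ IntermediateField.fixedField C ∧
      ∀ σ : H', (σ : K ≃ₐ[k] K) α = ((χ σ : Kˣ) : K) * α := by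
  classical
  have hN : (C.subgroupOf H').Normal := inferInstance
  let L : IntermediateField k K := IntermediateField.fixedField C
  let Q := H' ⧸ C.subgroupOf H'
  have hfinQ : Finite Q := Subgroup.finite_quotient_of_finiteIndex
  let _ : Fintype Q := Fintype.ofFinite Q
  -- the monoid homs `θ ↦ x.out θ`
  let f : Q → (L →* K) := fun x =>
    ((((Quotient.out x : H') : K ≃ₐ[k] K) : K →+* K).comp (algebraMap L K)).toMonoidHom
  have hf_apply : ∀ (x : Q) (θ : L), f x θ = ((Quotient.out x : H') : K ≃ₐ[k] K) (θ : K) :=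
    fun _ _ => rfl
  have hf_inj : Function.Injective f := by
    intro x y hxy
    have h1 : ∀ θ : L, ((Quotient.out x : H') : K ≃ₐ[k] K) (θ : K) =
        ((Quotient.out y : H') : K ≃ₐ[k] K) (θ : K) := fun θ => by
      rw [← hf_apply, ← hf_apply, hxy]
    have h2 : ((Quotient.out x : H') : K ≃ₐ[k] K)⁻¹ * ((Quotient.out y : H') : K ≃ₐ[k] K) ∈
        L.fixingSubgroup := by
      rw [IntermediateField.mem_fixingSubgroup_iff]
      intro θ hθ
      have := h1 ⟨θ, hθ⟩
      show ((Quotient.out x : H') : K ≃ₐ[k] K).symm (((Quotient.out y : H') : K ≃ₐ[k] K) θ) = θ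
      rw [AlgEquiv.symm_apply_eq]
      exact this.symm
    have h3 := hCclosed h2
    have h4 : (QuotientGroup.mk (Quotient.out x) : Q) = QuotientGroup.mk (Quotient.out y) := by
      rw [QuotientGroup.eq, Subgroup.mem_subgroupOf]
      simpa using h3
    rwa [QuotientGroup.out_eq', QuotientGroup.out_eq'] at h4
  have hli : LinearIndependent K (fun x : Q => ((f x : L →* K) : L → K)) :=
    (linearIndependent_monoidHom L K).comp f hf_inj
  have hex : ∃ θ : L, ∑ x : Q, (((χ (Quotient.out x))⁻¹ : Kˣ) : K) *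
      ((Quotient.out x : H') : K ≃ₐ[k] K) (θ : K) ≠ 0 := by
    by_contra hcon
    push Not at hcon
    have h0 := Fintype.linearIndependent_iff.mp hli
      (fun x => (((χ (Quotient.out x))⁻¹ : Kˣ) : K)) (by
        funext θ
        rw [Finset.sum_apply]
        simpa [hf_apply] using hcon θ) (1 : Q)
    exact Units.ne_zero _ h0
  obtain ⟨θ, hθ⟩ := hex
  -- the function `g` on `H'` and its descent to `Q`
  let g : H' → K := fun h => (((χ h)⁻¹ : Kˣ) : K) * (h : K ≃ₐ[k] K) (θ : K)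
  have hg : ∀ h c : H', (c : K ≃ₐ[k] K) ∈ C → g (h * c) = g h := by
    intro h c hc
    have h1 : χ c = 1 := hχC c hc
    have h2 : (c : K ≃ₐ[k] K) (θ : K) = θ := θ.2 ⟨c.1, hc⟩
    show (((χ (h * c))⁻¹ : Kˣ) : K) * ((h * c : H') : K ≃ₐ[k] K) (θ : K) = _
    rw [map_mul, h1, mul_one]
    show _ * (h : K ≃ₐ[k] K) ((c : K ≃ₐ[k] K) (θ : K)) = _
    rw [h2]
  have hgQ : ∀ h : H', g (Quotient.out (QuotientGroup.mk h : Q)) = g h := by
    intro h
    have h1 : (QuotientGroup.mk (Quotient.out (QuotientGroup.mk h : Q)) : Q) =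
        QuotientGroup.mk h := QuotientGroup.out_eq' _
    rw [eq_comm, QuotientGroup.eq, Subgroup.mem_subgroupOf] at h1
    have h2 := hg h (h⁻¹ * Quotient.out (QuotientGroup.mk h : Q)) h1
    rw [mul_inv_cancel_left] at h2
    exact h2
  have hequiv : ∀ σ : H', (σ : K ≃ₐ[k] K) (∑ x : Q, g (Quotient.out x)) =
      ((χ σ : Kˣ) : K) * ∑ x : Q, g (Quotient.out x) := by
    intro σ
    rw [map_sum]
    have h1 : ∀ x : Q, (σ : K ≃ₐ[k] K) (g (Quotient.out x)) =
        ((χ σ : Kˣ) : K) * g (Quotient.out ((QuotientGroup.mk σ : Q) * x)) := by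
      intro x
      have h2 : (QuotientGroup.mk σ : Q) * x = QuotientGroup.mk (σ * Quotient.out x) := by
        rw [QuotientGroup.mk_mul, QuotientGroup.out_eq']
      rw [h2, hgQ]
      show (σ : K ≃ₐ[k] K) ((((χ (Quotient.out x))⁻¹ : Kˣ) : K) *
          ((Quotient.out x : H') : K ≃ₐ[k] K) (θ : K)) =
        ((χ σ : Kˣ) : K) * ((((χ (σ * Quotient.out x))⁻¹ : Kˣ) : K) *
          ((σ * Quotient.out x : H') : K ≃ₐ[k] K) (θ : K))
      rw [map_mul, map_mul, mul_inv_rev, ← map_inv, hχfix, ← mul_assoc]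
      have h3 : ((χ σ : Kˣ) : K) * (((χ (Quotient.out x)⁻¹ * (χ σ)⁻¹ : Kˣ)) : K) =
          ((χ (Quotient.out x)⁻¹ : Kˣ) : K) := by
        rw [← Units.val_mul, mul_comm (χ (Quotient.out x)⁻¹), mul_inv_cancel_left]
      rw [h3]
      rfl
    rw [Finset.sum_congr rfl (fun x _ => h1 x), ← Finset.mul_sum]
    congr 1
    exact Equiv.sum_comp (Equiv.mulLeft (QuotientGroup.mk σ : Q)) (fun x => g (Quotient.out x))
  refine ⟨∑ x : Q, g (Quotient.out x), hθ, ?_, hequiv⟩
  rintro ⟨c, hc⟩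
  have h1 := hequiv ⟨c, hCH hc⟩
  rw [hχC ⟨c, hCH hc⟩ hc, Units.val_one, one_mul] at h1
  exact h1

end Fermat.Agent.KFin
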