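import Mathlib
import Fermat.Agent.Lib.KFin.Core
import Fermat.Agent.Lib.KFin.Inertia
import Fermat.Agent.Lib.KFin.Char
import Fermat.Agent.Lib.KFin.Resolvent

/-!
# KFin / Main : finiteness of the maximal elementary abelian `p`-extension unramified outside `S`

`kfin`: for an open subgroup `H` of `G_ℚ`, a prime `p` and a finite set `S` of primes there is a
finite extension `F / ℚ` with `Gal(ℚ̄/F) ≤ H` such that `Gal(ℚ̄/F) ≤ N` for every open subgroup
`N ≤ H` containing the commutators and `p`-th powers of `H` and all inertia groups at the primes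
outside `S`.  (Kummer theory over `E(ζ_p)`, `E` the fixed field of `H`; no discriminant bounds.)
-/

set_option autoImplicit false

open Fermat.Agent.FrobExists

namespace Fermat.Agent.KFin

attribute [local instance] isGalois_Qb

/-- An open subgroup is the fixing subgroup of its fixed field. -/
theorem kf_fixingSubgroup_fixedField (H : Subgroup GQ) (L₀ : IntermediateField ℚ Qb)
    [FiniteDimensional ℚ L₀] (h : L₀.fixingSubgroup ≤ H) :
    (IntermediateField.fixedField H).fixingSubgroup = H := by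
  have hopen : IsOpen (H : Set GQ) :=
    Subgroup.isOpen_mono h (IntermediateField.fixingSubgroup_isOpen L₀)
  have hclosed : IsClosed (H : Set GQ) := Subgroup.isClosed_of_isOpen H hopen
  exact InfiniteGalois.fixingSubgroup_fixedField ⟨H, hclosed⟩

theorem kf_fixedField_le (H : Subgroup GQ) (L₀ : IntermediateField ℚ Qb)
    (h : L₀.fixingSubgroup ≤ H) : IntermediateField.fixedField H ≤ L₀ := by
  rw [← InfiniteGalois.fixedField_fixingSubgroup L₀, IntermediateField.le_iff_le]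
  intro σ hσ
  have h1 := (IntermediateField.le_iff_le H (IntermediateField.fixedField H)).mp le_rfl (h hσ)
  exact h1

theorem kf_finiteDimensional_of_le {L₁ L₂ : IntermediateField ℚ Qb} (hle : L₁ ≤ L₂)
    [FiniteDimensional ℚ L₂] : FiniteDimensional ℚ L₁ :=
  FiniteDimensional.of_injective (IntermediateField.inclusion hle).toLinearMap
    (IntermediateField.inclusion_injective hle)

theorem kf_finiteIndex_fixingSubgroup (F : IntermediateField ℚ Qb) [FiniteDimensional ℚ F] :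
    F.fixingSubgroup.FiniteIndex := by
  refine ⟨?_⟩
  rw [← IntermediateField.finrank_eq_fixingSubgroup_index]
  exact Module.finrank_pos.ne'

theorem kf_mem_fixingSubgroup_adjoin_simple (σ : GQ) (ζ : Qb) (h : σ ζ = ζ) :
    σ ∈ (IntermediateField.adjoin ℚ {ζ}).fixingSubgroup := by
  rw [← Subgroup.zpowers_le, ← IntermediateField.le_iff_le,
    IntermediateField.adjoin_simple_le_iff]
  rintro ⟨g, hg⟩
  obtain ⟨n, rfl⟩ := Subgroup.mem_zpowers_iff.mp hg
  have hfix : σ ∈ MulAction.stabilizer GQ ζ := h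
  exact (Subgroup.zpow_mem _ hfix n)

/-- **Finiteness of the maximal elementary abelian `p`-extension unramified outside `S`.** -/
theorem kfin (p : ℕ) (hp : p.Prime) (S : Finset ℕ) (H : Subgroup GQ)
    (hH : ∃ L₀ : IntermediateField ℚ Qb, FiniteDimensional ℚ L₀ ∧ L₀.fixingSubgroup ≤ H) :
    ∃ F : IntermediateField ℚ Qb, FiniteDimensional ℚ F ∧ F.fixingSubgroup ≤ H ∧
      ∀ N : Subgroup GQ, N ≤ H →
        (∃ L : IntermediateField ℚ Qb, FiniteDimensional ℚ L ∧ L.fixingSubgroup ≤ N) →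
        (∀ σ ∈ H, ∀ τ ∈ H, σ * τ * σ⁻¹ * τ⁻¹ ∈ N) →
        (∀ σ ∈ H, σ ^ p ∈ N) →
        (∀ q : ℕ, q.Prime → q ∉ S → ∀ A : ValuationSubring Qb, A.LiesOverPrime q →
            A.inertiaSubgroupIn ℚ ≤ N) →
        F.fixingSubgroup ≤ N := by
  classical
  obtain ⟨L₀, hL₀, hL₀H⟩ := hH
  let E : IntermediateField ℚ Qb := IntermediateField.fixedField H
  have hEH : E.fixingSubgroup = H := kf_fixingSubgroup_fixedField H L₀ hL₀H
  have hEL₀ : E ≤ L₀ := kf_fixedField_le H L₀ hL₀H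
  have hEfin : FiniteDimensional ℚ E := kf_finiteDimensional_of_le hEL₀
  have hpne : NeZero ((p : ℕ) : ℚ) := ⟨by exact_mod_cast hp.ne_zero⟩
  have hpne' : NeZero p := ⟨hp.ne_zero⟩
  obtain ⟨ζ, hζ⟩ := HasEnoughRootsOfUnity.exists_primitiveRoot Qb p
  let Z : IntermediateField ℚ Qb := IntermediateField.adjoin ℚ {ζ}
  have hZfin : FiniteDimensional ℚ Z :=
    IntermediateField.adjoin.finiteDimensional (isAlgebraic_Qb.isAlgebraic ζ).isIntegral
  let E' : IntermediateField ℚ Qb := E ⊔ Z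
  have hE'fin : FiniteDimensional ℚ E' := IntermediateField.finiteDimensional_sup E Z
  have hζE' : ζ ∈ E' :=
    (le_sup_right : Z ≤ E') (IntermediateField.mem_adjoin_simple_self ℚ ζ)
  obtain ⟨F, hFfin, hE'F, hF⟩ := exists_field_of_kummer p hp (insert p S) E' ζ hζ
  refine ⟨F, hFfin, ?_, ?_⟩
  · rw [← hEH]
    exact IntermediateField.fixingSubgroup_antitone ((le_sup_left : E ≤ E').trans hE'F)
  intro N hNH hNopen hcomm hpow hunr τ hτF
  obtain ⟨L, hLfin, hLN⟩ := hNopen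
  by_contra hτN
  let H' : Subgroup GQ := E'.fixingSubgroup
  have hH'H : H' ≤ H := by
    rw [← hEH]
    exact IntermediateField.fixingSubgroup_antitone (le_sup_left : E ≤ E')
  have hτH' : τ ∈ H' := IntermediateField.fixingSubgroup_antitone hE'F hτF
  let N' : Subgroup GQ := N ⊓ H'
  have hN'H' : N' ≤ H' := inf_le_right
  have hτN' : τ ∉ N' := fun h => hτN h.1
  have hcomm' : ∀ σ ∈ H', ∀ τ ∈ H', σ * τ * σ⁻¹ * τ⁻¹ ∈ N' := fun σ hσ τ hτ =>
    ⟨hcomm σ (hH'H hσ) τ (hH'H hτ),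
      H'.mul_mem (H'.mul_mem (H'.mul_mem hσ hτ) (H'.inv_mem hσ)) (H'.inv_mem hτ)⟩
  have hpow' : ∀ σ ∈ H', σ ^ p ∈ N' := fun σ hσ => ⟨hpow σ (hH'H hσ), H'.pow_mem hσ p⟩
  -- a finite level for `N'`
  let L' : IntermediateField ℚ Qb := L ⊔ E'
  have hL'fin : FiniteDimensional ℚ L' := IntermediateField.finiteDimensional_sup L E'
  have hL'N' : L'.fixingSubgroup ≤ N' := by
    intro σ hσ
    rw [IntermediateField.fixingSubgroup_sup] at hσ
    exact ⟨hLN hσ.1, hσ.2⟩
  have hfinL' : L'.fixingSubgroup.FiniteIndex := kf_finiteIndex_fixingSubgroup L'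
  have hfinN'0 : N'.FiniteIndex := Subgroup.finiteIndex_of_le hL'N'
  have hfinN' : (N'.subgroupOf H').FiniteIndex := inferInstance
  obtain ⟨χ, hχN', hχτ, hχp⟩ := kf_exists_char Qb p H' N' hcomm' hpow' hfinN' τ hτH' hτN'
  -- the kernel of `χ` and its normal core
  let N₁ : Subgroup GQ := (χ.ker).map H'.subtype
  have hN₁ : ∀ σ : GQ, σ ∈ N₁ ↔ ∃ h : σ ∈ H', χ ⟨σ, h⟩ = 1 := by
    intro σ
    constructor
    · rintro ⟨x, hx, rfl⟩
      exact ⟨x.2, hx⟩
    · rintro ⟨h, hx⟩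
      exact ⟨⟨σ, h⟩, hx, rfl⟩
  have hN₁H' : N₁ ≤ H' := fun σ hσ => ((hN₁ σ).mp hσ).1
  have hN'N₁ : N' ≤ N₁ := fun σ hσ => (hN₁ σ).mpr ⟨hσ.2, hχN' ⟨σ, hσ.2⟩ hσ⟩
  let C : Subgroup GQ := N₁.normalCore
  have hCN₁ : C ≤ N₁ := Subgroup.normalCore_le N₁
  have hCH' : C ≤ H' := hCN₁.trans hN₁H'
  have hCn : C.Normal := Subgroup.normalCore_normal N₁
  -- `C` is open
  let L₂ : IntermediateField ℚ Qb := IntermediateField.normalClosure ℚ L' Qb
  have hL₂fin : FiniteDimensional ℚ L₂ := normalClosure.is_finiteDimensional ℚ L' Qb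
  have hL₂gal : IsGalois ℚ L₂ := IsGalois.normalClosure ℚ L' Qb
  have hL₂norm : L₂.fixingSubgroup.Normal := (InfiniteGalois.normal_iff_isGalois L₂).mpr hL₂gal
  have hL'L₂ : L' ≤ L₂ := IntermediateField.le_normalClosure L'
  have hL₂C : L₂.fixingSubgroup ≤ C :=
    Subgroup.normal_le_normalCore.mpr fun σ hσ =>
      hN'N₁ (hL'N' (IntermediateField.fixingSubgroup_antitone hL'L₂ hσ))
  let M : IntermediateField ℚ Qb := IntermediateField.fixedField C
  have hMC : M.fixingSubgroup = C := kf_fixingSubgroup_fixedField C L₂ hL₂C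
  have hML₂ : M ≤ L₂ := kf_fixedField_le C L₂ hL₂C
  have hMfin : FiniteDimensional ℚ M := kf_finiteDimensional_of_le hML₂
  have hMgal : IsGalois ℚ M := (InfiniteGalois.normal_iff_isGalois M).mp (by rw [hMC]; exact hCn)
  have hE'M : E' ≤ M := (IntermediateField.le_iff_le C E').mpr hCH'
  -- the values of `χ` lie in `E'`
  have hχE' : ∀ h : H', ((χ h : Qbˣ) : Qb) ∈ E' := by
    intro h
    have h1 : ((χ h : Qbˣ) : Qb) ^ p = 1 := by
      rw [← Units.val_pow_eq_pow_val, hχp h, Units.val_one]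
    obtain ⟨j, -, hj⟩ := hζ.eq_pow_of_pow_eq_one h1
    rw [← hj]
    exact pow_mem hζE' j
  have hχfix : ∀ σ h : H', (σ : GQ) ((χ h : Qbˣ) : Qb) = ((χ h : Qbˣ) : Qb) := fun σ h =>
    (IntermediateField.mem_fixingSubgroup_iff E' σ.1).mp σ.2 _ (hχE' h)
  have hfinL₂ : L₂.fixingSubgroup.FiniteIndex := kf_finiteIndex_fixingSubgroup L₂
  have hfinC0 : C.FiniteIndex := Subgroup.finiteIndex_of_le hL₂C
  have hfinC : (C.subgroupOf H').FiniteIndex := inferInstance
  obtain ⟨α, hα0, hαM, hασ⟩ := kf_exists_resolvent H' C hCH' hCn hfinC (le_of_eq hMC) χ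
    (fun h hh => ((hN₁ h.1).mp (hCN₁ hh)).2) hχfix
  -- `α ^ p ∈ E'`
  have hαp : α ^ p ∈ E' := by
    rw [← InfiniteGalois.fixedField_fixingSubgroup E']
    rintro ⟨σ, hσ⟩
    show σ (α ^ p) = α ^ p
    rw [map_pow, hασ ⟨σ, hσ⟩, mul_pow, ← Units.val_pow_eq_pow_val, hχp, Units.val_one, one_mul]
  -- `M` is unramified outside `S ∪ {p}`
  have hunrM : ∀ q : ℕ, q.Prime → q ∉ insert p S → ∀ A : ValuationSubring Qb,
      A.LiesOverPrime q → A.inertiaSubgroupIn ℚ ≤ M.fixingSubgroup := by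
    intro q hq hqS A hA σ hσ
    rw [hMC]
    intro b
    have h1 := kf_conj_mem_inertiaSubgroupIn (K := ℚ) A b σ hσ
    have h2 := kf_liesOverPrime_smul (K := ℚ) A b q hA
    have hqp : q ≠ p := fun h => hqS (h ▸ Finset.mem_insert_self _ _)
    have hqS' : q ∉ S := fun h => hqS (Finset.mem_insert_of_mem h)
    have hqp' : ¬ q ∣ p := fun h => hqp ((Nat.prime_dvd_prime_iff_eq hq hp).mp h)
    have h3 : b * σ * b⁻¹ ∈ N := hunr q hq hqS' _ h2 h1
    have h4 : b * σ * b⁻¹ ∈ H' := by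
      show _ ∈ (E ⊔ Z).fixingSubgroup
      rw [IntermediateField.fixingSubgroup_sup]
      refine ⟨?_, ?_⟩
      · rw [hEH]
        exact hNH h3
      · exact kf_mem_fixingSubgroup_adjoin_simple _ ζ
          (kf_inertia_fix_root p hp.ne_zero hq hqp' _ h2 _ h1 hζ.pow_eq_one)
    exact hN'N₁ ⟨h3, h4⟩
  have hαF : α ∈ F := hF α hα0 hαp M hMfin hMgal hE'M hαM hunrM
  have h1 := hασ ⟨τ, hτH'⟩
  have h2 : τ α = α := (IntermediateField.mem_fixingSubgroup_iff F τ).mp hτF α hαF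
  rw [h2] at h1
  have h3 : ((χ ⟨τ, hτH'⟩ : Qbˣ) : Qb) = 1 := by
    have h4 : ((χ ⟨τ, hτH'⟩ : Qbˣ) : Qb) * α = 1 * α := by rw [one_mul]; exact h1.symm
    exact mul_right_cancel₀ hα0 h4
  exact hχτ (Units.ext h3)

end Fermat.Agent.KFin
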